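import Fermat.Agent.S17.Height.Defs

/-!
# S17, layer 0: calculus of multihomogeneous polynomial functions  [WP MH-CALC]

Pure algebra (`MvPolynomial`, `IsWeightedHomogeneous`).  `k` is any commutative ring / field.
-/

set_option autoImplicit false

namespace Fermat.Agent.MW

open MvPolynomial

variable {k : Type*} [CommRing k] {L : Type*} {ι : L → Type*}

namespace IsMHPoly

theorem congr {d : L → ℕ} {f g : (∀ l, ι l → k) → k} (hf : IsMHPoly d f) (h : ∀ z, g z = f z) :
    IsMHPoly d g := by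
  obtain ⟨p, hp, hfp⟩ := hf
  exact ⟨p, hp, fun z => by rw [h, hfp]⟩

theorem const (c : k) : IsMHPoly (ι := ι) (0 : L → ℕ) (fun _ => c) :=
  ⟨C c, isWeightedHomogeneous_C _ c, fun z => by rw [eval_C]⟩

theorem zero (d : L → ℕ) : IsMHPoly (ι := ι) (k := k) d (fun _ => 0) :=
  ⟨0, isWeightedHomogeneous_zero _ _ d, fun z => by rw [map_zero]⟩

open Classical in
theorem coord (l : L) (i : ι l) : IsMHPoly (k := k) (Pi.single l 1 : L → ℕ) (fun z : ∀ l, ι l → k => z l i) :=
  ⟨X ⟨l, i⟩, isWeightedHomogeneous_X _ _ _, fun z => by rw [eval_X]⟩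

theorem add {d : L → ℕ} {f g : (∀ l, ι l → k) → k} (hf : IsMHPoly d f) (hg : IsMHPoly d g) :
    IsMHPoly d (fun z => f z + g z) := by
  obtain ⟨p, hp, hfp⟩ := hf
  obtain ⟨q, hq, hgq⟩ := hg
  exact ⟨p + q, hp.add hq, fun z => by rw [map_add, ← hfp, ← hgq]⟩

theorem mul {d e : L → ℕ} {f g : (∀ l, ι l → k) → k} (hf : IsMHPoly d f) (hg : IsMHPoly e g) :
    IsMHPoly (d + e) (fun z => f z * g z) := by
  obtain ⟨p, hp, hfp⟩ := hf
  obtain ⟨q, hq, hgq⟩ := hg
  exact ⟨p * q, hp.mul hq, fun z => by rw [map_mul, ← hfp, ← hgq]⟩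

theorem const_mul {d : L → ℕ} {f : (∀ l, ι l → k) → k} (c : k) (hf : IsMHPoly d f) :
    IsMHPoly d (fun z => c * f z) := by
  have := (const (ι := ι) c).mul hf
  rwa [zero_add] at this

theorem neg {d : L → ℕ} {f : (∀ l, ι l → k) → k} (hf : IsMHPoly d f) :
    IsMHPoly d (fun z => - f z) :=
  (hf.const_mul (-1)).congr fun z => by ring

theorem sub {d : L → ℕ} {f g : (∀ l, ι l → k) → k} (hf : IsMHPoly d f) (hg : IsMHPoly d g) :
    IsMHPoly d (fun z => f z - g z) :=
  (hf.add hg.neg).congr fun z => by ring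

theorem pow {d : L → ℕ} {f : (∀ l, ι l → k) → k} (hf : IsMHPoly d f) (n : ℕ) :
    IsMHPoly (n • d) (fun z => f z ^ n) := by
  obtain ⟨p, hp, hfp⟩ := hf
  exact ⟨p ^ n, hp.pow n, fun z => by rw [map_pow, ← hfp]⟩

theorem sum {α : Type*} (s : Finset α) {d : L → ℕ} {f : α → (∀ l, ι l → k) → k}
    (hf : ∀ a ∈ s, IsMHPoly d (f a)) : IsMHPoly d (fun z => ∑ a ∈ s, f a z) := by
  classical
  induction s using Finset.induction_on with
  | empty => simpa using zero d
  | insert a s ha ih =>
    have h1 := (hf a (Finset.mem_insert_self a s)).add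
      (ih fun b hb => hf b (Finset.mem_insert_of_mem hb))
    exact h1.congr fun z => by rw [Finset.sum_insert ha]

theorem prod {α : Type*} (s : Finset α) {d : α → L → ℕ} {f : α → (∀ l, ι l → k) → k}
    (hf : ∀ a ∈ s, IsMHPoly (d a) (f a)) : IsMHPoly (∑ a ∈ s, d a) (fun z => ∏ a ∈ s, f a z) := by
  classical
  induction s using Finset.induction_on with
  | empty => simpa using const (ι := ι) (1 : k)
  | insert a s ha ih =>
    have h1 := (hf a (Finset.mem_insert_self a s)).mul
      (ih fun b hb => hf b (Finset.mem_insert_of_mem hb))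
    rw [Finset.sum_insert ha]
    exact h1.congr fun z => by rw [Finset.prod_insert ha]

/-- determinant of a matrix whose `i`-th ROW has multidegree `d i`. -/
theorem det_rows {n : Type*} [Fintype n] [DecidableEq n] {d : n → L → ℕ}
    {M : n → n → (∀ l, ι l → k) → k} (hM : ∀ i j, IsMHPoly (d i) (M i j)) :
    IsMHPoly (∑ i, d i) (fun z => Matrix.det (Matrix.of fun i j => M i j z)) := by
  have h1 : ∀ σ : Equiv.Perm n, IsMHPoly (∑ i, d i)
      (fun z => ((Equiv.Perm.sign σ : ℤ) : k) * ∏ i, M (σ i) i z) := by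
    intro σ
    have h2 := prod Finset.univ (d := fun i => d (σ i)) (f := fun i => M (σ i) i)
      (fun i _ => hM (σ i) i)
    rw [Equiv.sum_comp σ d] at h2
    exact h2.const_mul _
  exact (sum Finset.univ fun σ _ => h1 σ).congr fun z => by
    rw [Matrix.det_apply']
    rfl

/-- determinant of a matrix all of whose entries have multidegree `d`. -/
theorem det {n : Type*} [Fintype n] [DecidableEq n] {d : L → ℕ}
    {M : n → n → (∀ l, ι l → k) → k} (hM : ∀ i j, IsMHPoly d (M i j)) :
    IsMHPoly (Fintype.card n • d) (fun z => Matrix.det (Matrix.of fun i j => M i j z)) := by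
  have := det_rows (d := fun _ => d) hM
  rwa [Finset.sum_const, Finset.card_univ] at this

/-- entries of the adjugate. -/
theorem adjugate {n : Type*} [Fintype n] [DecidableEq n] {d : L → ℕ}
    {M : n → n → (∀ l, ι l → k) → k} (hM : ∀ i j, IsMHPoly d (M i j)) (a b : n) :
    IsMHPoly ((Fintype.card n - 1) • d)
      (fun z => Matrix.adjugate (Matrix.of fun i j => M i j z) a b) := by
  have h1 := det_rows (d := fun i => if i = b then 0 else d)
    (M := fun i j z => if i = b then (Pi.single a 1 : n → k) j else M i j z) (fun i j => by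
      by_cases hi : i = b
      · simp only [hi, if_true]
        exact const _
      · simp only [hi, if_false]
        exact hM i j)
  have h2 : (∑ i, if i = b then (0 : L → ℕ) else d) = (Fintype.card n - 1) • d := by
    rw [← Finset.add_sum_erase _ _ (Finset.mem_univ b), if_pos rfl, zero_add,
      Finset.sum_congr rfl (fun i hi => if_neg (Finset.ne_of_mem_erase hi)), Finset.sum_const,
      Finset.card_erase_of_mem (Finset.mem_univ b), Finset.card_univ]
  rw [h2] at h1
  refine h1.congr fun z => ?_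
  rw [Matrix.adjugate_apply]
  congr 1
  ext i j
  by_cases hi : i = b
  · subst hi
    simp
  · simp [hi, Matrix.updateRow_apply]

/-- a homogeneous polynomial in the variables of ONE block. -/
theorem of_block [DecidableEq L] (l : L) {n : ℕ} {p : MvPolynomial (ι l) k} (hp : p.IsHomogeneous n) :
    IsMHPoly (Pi.single l n : L → ℕ) (fun z : ∀ l, ι l → k => MvPolynomial.eval (z l) p) := by
  refine ⟨rename (fun i => (⟨l, i⟩ : Σ l, ι l)) p, ?_, fun z => by rw [eval_rename]; rfl⟩
  intro u hu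
  obtain ⟨v, rfl, hv⟩ := coeff_rename_ne_zero _ _ _ hu
  have h1 := hp hv
  rw [Finsupp.weight_apply] at h1
  rw [Finsupp.weight_apply, Finsupp.sum_mapDomain_index (by simp) (by intros; rw [add_smul]), ← h1]
  funext l'
  simp only [Finsupp.sum, Finset.sum_apply, Pi.smul_apply, mwt, Pi.single_apply, Pi.one_apply]
  by_cases hl : l' = l
  · simp [hl]
  · simp [hl]

end IsMHPoly

/-- closed cones in one block -/
def IsHClosed {ι : Type*} (C : Set (ι → k)) : Prop :=
  ∃ Q : Set (MvPolynomial ι k), (∀ p ∈ Q, ∃ n, p.IsHomogeneous n) ∧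
    C = {v | ∀ p ∈ Q, MvPolynomial.eval v p = 0}

theorem IsHClosed.univ {ι : Type*} : IsHClosed (Set.univ : Set (ι → k)) :=
  ⟨∅, by simp, by simp⟩

theorem IsMClosed.univ : IsMClosed (Set.univ : Set (∀ l, ι l → k)) :=
  ⟨∅, by simp, by simp⟩

theorem IsMClosed.inter {X Y : Set (∀ l, ι l → k)} (hX : IsMClosed X) (hY : IsMClosed Y) :
    IsMClosed (X ∩ Y) := by
  obtain ⟨Q, hQ, rfl⟩ := hX
  obtain ⟨Q', hQ', rfl⟩ := hY
  refine ⟨Q ∪ Q', ?_, ?_⟩
  · rintro f (hf | hf)
    · exact hQ f hf
    · exact hQ' f hf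
  · ext z
    simp only [Set.mem_inter_iff, Set.mem_ofPred_eq, Set.mem_union]
    constructor
    · rintro ⟨h1, h2⟩ f (hf | hf)
      · exact h1 f hf
      · exact h2 f hf
    · intro h
      exact ⟨fun f hf => h f (Or.inl hf), fun f hf => h f (Or.inr hf)⟩

/-- a product of closed cones is multi-closed. -/
theorem IsMClosed.of_blocks (C : ∀ l, Set (ι l → k)) (hC : ∀ l, IsHClosed (C l)) :
    IsMClosed {z : ∀ l, ι l → k | ∀ l, z l ∈ C l} := by
  classical
  choose Q hQ hCQ using hC
  refine ⟨{f | ∃ l, ∃ p ∈ Q l, f = fun z => MvPolynomial.eval (z l) p}, ?_, ?_⟩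
  · rintro f ⟨l, p, hp, rfl⟩
    obtain ⟨n, hn⟩ := hQ l p hp
    exact ⟨_, IsMHPoly.of_block l hn⟩
  · ext z
    simp only [Set.mem_ofPred_eq]
    constructor
    · rintro h f ⟨l, p, hp, rfl⟩
      have := h l
      rw [hCQ l] at this
      exact this p hp
    · intro h l
      rw [hCQ l]
      intro p hp
      exact h _ ⟨l, p, hp, rfl⟩

end Fermat.Agent.MW
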