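import Fermat.Agent.S17.Height.Base

/-!
# S17 route F, layer 0: monotonicity and the bilinear bound   [WP F-H36]

Choose a number field `K ⊆ ℚ̄` containing all the data (`AH.exists_numberField`, `AH.absLogHeight_eq_of_mem`) and use the
place-by-place criterion `AH.RelAux.mulHeight_le_of_local` (+ `AH.RelAux.real_aux`), exactly as in the proof of
`AH.exists_absLogHeight_linear_le`.
-/

set_option autoImplicit false

namespace Fermat.Agent.MW

open MvPolynomial S17.AH

variable {ι κ μ : Type*} [Finite ι] [Finite κ] [Finite μ]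

/-- the place-by-place criterion, for absolute heights. -/
theorem habs_le_of_local {α β γ : Type*} [Finite α] [Finite β] [Finite γ]
    (K : IntermediateField ℚ Qb) [NumberField K] (c : ℕ) (hc : 0 < c)
    (s : α → K) (w : γ → K) (t : β → K) (hw : w ≠ 0) (ht : t ≠ 0)
    (harch : ∀ (v : AbsoluteValue K ℝ) (a : α), v (s a) ≤ c * (⨆ g, v (w g)) * ⨆ b, v (t b))
    (hnon : ∀ v : AbsoluteValue K ℝ, IsNonarchimedean v →
      ∀ a, v (s a) ≤ (⨆ g, v (w g)) * ⨆ b, v (t b)) :
    habs (fun a => (s a : Qb)) ≤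
      habs (fun g => (w g : Qb)) + habs (fun b => (t b : Qb)) + Real.log c := by
  have hlog : 0 ≤ Real.log c := Real.log_natCast_nonneg c
  rcases eq_or_ne s 0 with rfl | hs
  · have h0 : (fun a => (((0 : α → K) a : K) : Qb)) = 0 := by
      funext a
      simp
    rw [h0, habs_zero]
    have h1 := habs_nonneg (fun g => (w g : Qb))
    have h2 := habs_nonneg (fun b => (t b : Qb))
    positivity
  have hα : Nonempty α := (Function.ne_iff.mp hs).nonempty
  have hmain := RelAux.mulHeight_le_of_local c s w t hs hw ht (fun v => ciSup_le (harch v))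
    (fun v hv => ciSup_le (hnon v hv))
  rw [NumberField.totalWeight_eq_finrank] at hmain
  have hcpos : (0 : ℝ) < c := by exact_mod_cast hc
  have h3 := RelAux.real_aux (finrank_cast_pos K) hcpos (Height.mulHeight_pos _)
    (Height.mulHeight_pos _) (Height.mulHeight_pos _) hmain
  rw [habs_def, habs_def, habs_def, absLogHeight_eq K s, absLogHeight_eq K w, absLogHeight_eq K t,
    Height.logHeight_eq_log_mulHeight, Height.logHeight_eq_log_mulHeight,
    Height.logHeight_eq_log_mulHeight]
  linarith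

/-- [F-H3] monotonicity: every entry of `x` is `0` or `±` an entry of `y`. -/
theorem habs_le_of_entries {x : ι → Qb} {y : κ → Qb}
    (h : ∀ i, x i = 0 ∨ ∃ j, x i = y j ∨ x i = - y j) : habs x ≤ habs y := by
  rcases eq_or_ne y 0 with rfl | hy
  · have : x = 0 := by
      funext i
      rcases h i with h | ⟨j, h | h⟩ <;> simp [h]
    rw [this, habs_zero, habs_zero]
  obtain ⟨K, hK, hS⟩ := exists_numberField (Set.range x ∪ Set.range y)
    ((Set.finite_range x).union (Set.finite_range y))
  have := numberField_of_finiteDimensional K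
  have hxK : ∀ i, x i ∈ K := fun i => hS (Or.inl ⟨i, rfl⟩)
  have hyK : ∀ i, y i ∈ K := fun i => hS (Or.inr ⟨i, rfl⟩)
  have hy' : (fun i => (⟨y i, hyK i⟩ : K)) ≠ 0 := by
    intro h
    exact hy (funext fun i => congrArg Subtype.val (congrFun h i))
  have key : ∀ (v : AbsoluteValue K ℝ) (i : ι),
      v (⟨x i, hxK i⟩ : K) ≤ ⨆ j, v (⟨y j, hyK j⟩ : K) := by
    intro v i
    rcases h i with h | ⟨j, h | h⟩
    · have : (⟨x i, hxK i⟩ : K) = 0 := Subtype.ext h
      rw [this, map_zero]
      exact Real.iSup_nonneg_of_nonnegHomClass v _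
    · have : (⟨x i, hxK i⟩ : K) = ⟨y j, hyK j⟩ := Subtype.ext h
      rw [this]
      exact Finite.le_ciSup (fun j => v (⟨y j, hyK j⟩ : K)) j
    · have : (⟨x i, hxK i⟩ : K) = - ⟨y j, hyK j⟩ := Subtype.ext h
      rw [this, v.map_neg]
      exact Finite.le_ciSup (fun j => v (⟨y j, hyK j⟩ : K)) j
  have h1 := habs_le_of_local K 1 one_pos (fun i => (⟨x i, hxK i⟩ : K)) (fun _ : Unit => (1 : K))
    (fun i => (⟨y i, hyK i⟩ : K)) (fun h => one_ne_zero (congrFun h ())) hy'
    (fun v i => by simpa using key v i) (fun v _ i => by simpa using key v i)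
  have h2 : habs (fun _ : Unit => (((1 : K) : K) : Qb)) = 0 := absLogHeight_of_subsingleton _
  rw [h2] at h1
  simpa using h1

/-- [F-H3] -/
theorem habs_eq_of_entries {x : ι → Qb} {y : κ → Qb}
    (h : ∀ i, x i = 0 ∨ ∃ j, x i = y j ∨ x i = - y j)
    (h' : ∀ j, y j = 0 ∨ ∃ i, y j = x i ∨ y j = - x i) : habs x = habs y :=
  le_antisymm (habs_le_of_entries h) (habs_le_of_entries h')

/-- [F-H6] the general bilinear bound. -/
theorem habs_sum_mul_le {I T : Type*} [Finite I] [Fintype T] (M : μ → Qb) (v : κ → Qb)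
    (a : I → T → μ) (b : I → T → κ) :
    habs (fun i => ∑ t, M (a i t) * v (b i t)) ≤ habs M + habs v + Real.log (Fintype.card T) := by
  have hlog : 0 ≤ Real.log (Fintype.card T) := Real.log_natCast_nonneg _
  have hM0 := habs_nonneg M
  have hv0 := habs_nonneg v
  have hzero : (fun i => ∑ t, M (a i t) * v (b i t)) = 0 →
      habs (fun i => ∑ t, M (a i t) * v (b i t)) ≤ habs M + habs v + Real.log (Fintype.card T) := by
    intro h
    rw [h, habs_zero]
    positivity
  rcases eq_or_ne M 0 with rfl | hM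
  · exact hzero (by funext i; simp)
  rcases eq_or_ne v 0 with rfl | hv
  · exact hzero (by funext i; simp)
  rcases isEmpty_or_nonempty T with hT | hT
  · exact hzero (by funext i; simp)
  obtain ⟨K, hK, hS⟩ := exists_numberField (Set.range M ∪ Set.range v)
    ((Set.finite_range M).union (Set.finite_range v))
  have := numberField_of_finiteDimensional K
  have hMK : ∀ i, M i ∈ K := fun i => hS (Or.inl ⟨i, rfl⟩)
  have hvK : ∀ i, v i ∈ K := fun i => hS (Or.inr ⟨i, rfl⟩)
  have hM' : (fun i => (⟨M i, hMK i⟩ : K)) ≠ 0 := by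
    intro h
    exact hM (funext fun i => congrArg Subtype.val (congrFun h i))
  have hv' : (fun i => (⟨v i, hvK i⟩ : K)) ≠ 0 := by
    intro h
    exact hv (funext fun i => congrArg Subtype.val (congrFun h i))
  have term : ∀ (w : AbsoluteValue K ℝ) (i : I) (t : T),
      w ((⟨M (a i t), hMK _⟩ : K) * ⟨v (b i t), hvK _⟩) ≤
        (⨆ g, w (⟨M g, hMK g⟩ : K)) * ⨆ g, w (⟨v g, hvK g⟩ : K) := by
    intro w i t
    rw [map_mul]
    exact mul_le_mul (Finite.le_ciSup (fun g => w (⟨M g, hMK g⟩ : K)) _)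
      (Finite.le_ciSup (fun g => w (⟨v g, hvK g⟩ : K)) _) (w.nonneg _)
      (Real.iSup_nonneg_of_nonnegHomClass w _)
  have h1 := habs_le_of_local K (Fintype.card T) Fintype.card_pos
    (fun i => ∑ t, (⟨M (a i t), hMK _⟩ : K) * ⟨v (b i t), hvK _⟩)
    (fun i => (⟨M i, hMK i⟩ : K)) (fun i => (⟨v i, hvK i⟩ : K)) hM' hv'
    (fun w i => by
      refine (w.sum_le _ _).trans ?_
      refine (Finset.sum_le_card_nsmul _ _ _ fun t _ => term w i t).trans (le_of_eq ?_)
      rw [Finset.card_univ, nsmul_eq_mul, mul_assoc])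
    (fun w hw i => by
      obtain ⟨t, -, ht⟩ := hw.finset_image_add_of_nonempty
        (fun t => (⟨M (a i t), hMK _⟩ : K) * ⟨v (b i t), hvK _⟩) (Finset.univ_nonempty (α := T))
      exact ht.trans (term w i t))
  have h2 : (fun i => ((∑ t, (⟨M (a i t), hMK _⟩ : K) * ⟨v (b i t), hvK _⟩ : K) : Qb)) =
      fun i => ∑ t, M (a i t) * v (b i t) := by
    funext i
    simp
  rw [h2] at h1
  exact h1

/-- [H6] matrix product -/
theorem habs_matmul_le [Fintype κ] (M : ι × κ → Qb) (N : κ × μ → Qb) :
    habs (fun p : ι × μ => ∑ j, M (p.1, j) * N (j, p.2)) ≤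
      habs M + habs N + Real.log (Fintype.card κ) :=
  habs_sum_mul_le (I := ι × μ) (T := κ) M N (fun p j => (p.1, j)) (fun p j => (j, p.2))

/-- [H6'] matrix times vector -/
theorem habs_mulVec_le [Fintype κ] (M : ι × κ → Qb) (v : κ → Qb) :
    habs (fun i : ι => ∑ j, M (i, j) * v j) ≤ habs M + habs v + Real.log (Fintype.card κ) :=
  habs_sum_mul_le (I := ι) (T := κ) M v (fun i j => (i, j)) (fun _ j => j)

end Fermat.Agent.MW
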