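import Fermat.Agent.S17.Height.Bilin

/-!
# S17 route F, layer 0: upper bound for multihomogeneous polynomial maps   [WP F-H8]

`p j z = ∑_μ c_{j,μ} z^μ`, all monomials of multidegree `d`.  Every monomial `z^μ` of multidegree `d` is an ENTRY of the
tensor `t(z) = ∏_l ∏_{e < d l} z l (q l e)`, whose height is `∑ d l * habs (z l)` by `habs_pi_prod`; so `p z` is a
fixed bilinear expression in (coefficients, `t(z)`) and `habs_sum_mul_le` applies.
-/

set_option autoImplicit false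

namespace Fermat.Agent.MW

open MvPolynomial S17.AH

/-- a monomial of degree `N` is a product of `N` coordinates. -/
theorem exists_fin_map {I : Type*} [Fintype I] (n : I → ℕ) (N : ℕ) (h : ∑ i, n i = N) :
    ∃ f : Fin N → I, ∀ x : I → Qb, ∏ e, x (f e) = ∏ i, x i ^ n i := by
  have hc : Fintype.card (Σ i, Fin (n i)) = N := by
    rw [Fintype.card_sigma]
    simpa using h
  let e := Fintype.equivFinOfCardEq hc
  refine ⟨fun k => (e.symm k).1, fun x => ?_⟩
  rw [Equiv.prod_comp e.symm (fun s : Σ i, Fin (n i) => x s.1), Fintype.prod_sigma]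
  simp

/-- the multi-weight of a monomial. -/
theorem weight_mwt_apply {L : Type*} [Fintype L] {ι : L → Type*} [∀ l, Fintype (ι l)]
    (m : (Σ l, ι l) →₀ ℕ) (l : L) :
    Finsupp.weight (mwt (ι := ι)) m l = ∑ i, m ⟨l, i⟩ := by
  classical
  rw [Finsupp.weight_apply, Finsupp.sum_fintype _ _ (by simp), Finset.sum_apply, Fintype.sum_sigma]
  rw [Finset.sum_eq_single l]
  · simp [mwt]
  · intro l' _ hl'
    simp [mwt, hl']
  · simp

variable {L : Type*} [Fintype L] {ι : L → Type*} [∀ l, Finite (ι l)] {J : Type*} [Finite J]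

/-- [F-H8] upper bound for multihomogeneous polynomial maps. -/
theorem habs_mh_le (d : L → ℕ) (p : J → (∀ l, ι l → Qb) → Qb) (hp : ∀ j, IsMHPoly d (p j)) :
    ∃ C : ℝ, ∀ z : ∀ l, ι l → Qb, (∀ l, z l ≠ 0) →
      habs (fun j => p j z) ≤ ∑ l, (d l : ℝ) * habs (z l) + C := by
  classical
  have : ∀ l, Fintype (ι l) := fun l => Fintype.ofFinite _
  have : Fintype J := Fintype.ofFinite J
  choose P hP hPe using hp
  let S : Finset ((Σ l, ι l) →₀ ℕ) := Finset.univ.biUnion fun j => (P j).support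
  have hS : ∀ t : S, Finsupp.weight (mwt (ι := ι)) (t : (Σ l, ι l) →₀ ℕ) = d := by
    rintro ⟨t, ht⟩
    obtain ⟨j, -, hj⟩ := Finset.mem_biUnion.1 ht
    exact hP j (MvPolynomial.mem_support_iff.1 hj)
  have hq : ∀ t : S, ∃ q : (∀ a : (Σ l, Fin (d l)), ι a.1), ∀ z : ∀ l, ι l → Qb,
      ∏ s : (Σ l, ι l), z s.1 s.2 ^ (t : (Σ l, ι l) →₀ ℕ) s = ∏ a : (Σ l, Fin (d l)), z a.1 (q a) := by
    intro t
    have h1 : ∀ l, ∃ f : Fin (d l) → ι l, ∀ x : ι l → Qb,
        ∏ e, x (f e) = ∏ i, x i ^ (t : (Σ l, ι l) →₀ ℕ) ⟨l, i⟩ := fun l =>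
      exists_fin_map _ _ (by rw [← weight_mwt_apply, hS t])
    choose f hf using h1
    refine ⟨fun a => f a.1 a.2, fun z => ?_⟩
    rw [Fintype.prod_sigma, Fintype.prod_sigma]
    exact Finset.prod_congr rfl fun l _ => (hf l (z l)).symm
  choose q hq using hq
  refine ⟨habs (fun r : J × S => coeff (r.2 : (Σ l, ι l) →₀ ℕ) (P r.1)) +
    Real.log (Fintype.card S), fun z hz => ?_⟩
  have h1 := habs_sum_mul_le (I := J) (T := S)
    (fun r : J × S => coeff (r.2 : (Σ l, ι l) →₀ ℕ) (P r.1))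
    (fun q : (∀ a : (Σ l, Fin (d l)), ι a.1) => ∏ a, z a.1 (q a))
    (fun j t => (j, t)) (fun _ t => q t)
  have h2 : (fun j => p j z) = fun j => ∑ t : S, coeff (t : (Σ l, ι l) →₀ ℕ) (P j) *
      ∏ a, z a.1 (q t a) := by
    funext j
    rw [hPe j z, MvPolynomial.eval_eq']
    have h3 : (P j).support ⊆ S := fun m hm => Finset.mem_biUnion.2 ⟨j, Finset.mem_univ j, hm⟩
    rw [Finset.sum_subset h3 (fun m _ hm => by
      rw [MvPolynomial.notMem_support_iff.1 hm, zero_mul]), ← Finset.sum_coe_sort S]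
    exact Finset.sum_congr rfl fun t _ => by rw [hq t z]
  have h4 : habs (fun q : (∀ a : (Σ l, Fin (d l)), ι a.1) => ∏ a, z a.1 (q a)) =
      ∑ l, (d l : ℝ) * habs (z l) := by
    rw [habs_pi_prod (J := Σ l, Fin (d l)) (fun a => z a.1) (fun a => hz a.1), Fintype.sum_sigma]
    exact Finset.sum_congr rfl fun l _ => by
      change ∑ _y : Fin (d l), habs (z l) = _
      rw [Finset.sum_const, Finset.card_univ, Fintype.card_fin, nsmul_eq_mul]
  rw [h2]
  rw [h4] at h1
  linarith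

end Fermat.Agent.MW
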