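import Fermat.Agent.S17.Height.Base
import Fermat.Agent.S17.Height.Upper
import Fermat.Agent.S17.El.ThmM
import Fermat.Agent.S17.El.Glob.GP

/-!
# S17 route F, layer 0: **(BL)** the lower bound   [WP F-H9]

`El.thmM` (landed) gives the LOCAL statement: with `I` = the ideal generated by the polynomials defining `X` and `Φ j` the polynomials
of `p j`:  `∏_l ‖z l‖_v^{d l} ≤ γ.val v * ‖p z‖_v` for every absolute value `v` of `ℚ̄` and every `z ∈ X` with nonzero blocks.
(`hI`: the defining polynomials are multihomogeneous, so `V(I)` is stable under rescaling of the blocks.)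
Globalise with `El.GP1` applied to the tensor `∏_l ∏_{e<d l} z l (q l e)` and `p z`.
-/

set_option autoImplicit false

namespace Fermat.Agent.MW

open MvPolynomial S17.AH

/-- sup norm of a tensor product. -/
theorem nrm_pi_prod {K : Type*} [Field K] (v : AbsoluteValue K ℝ) {J : Type*} [Fintype J]
    {ι : J → Type*} [∀ j, Finite (ι j)] (x : ∀ j, ι j → K) (hx : ∀ j, x j ≠ 0) :
    S17.El.nrm v (fun q : ∀ j, ι j => ∏ j, x j (q j)) = ∏ j, S17.El.nrm v (x j) := by
  classical
  apply le_antisymm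
  · refine S17.El.nrm_le v (Finset.prod_nonneg fun j _ => S17.El.nrm_nonneg v _) fun q => ?_
    rw [map_prod]
    exact Finset.prod_le_prod (fun j _ => v.nonneg _) fun j _ => S17.El.le_nrm v (x j) (q j)
  · have hne : ∀ j, Nonempty (ι j) := fun j => by
      obtain ⟨i, -⟩ := Function.ne_iff.mp (hx j)
      exact ⟨i⟩
    have : ∀ j, ∃ i, S17.El.nrm v (x j) = v (x j i) := fun j => S17.El.exists_eq_nrm v (x j)
    choose q hq using this
    calc ∏ j, S17.El.nrm v (x j) = v (∏ j, x j (q j)) := by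
          rw [map_prod]; exact Finset.prod_congr rfl fun j _ => hq j
      _ ≤ _ := S17.El.le_nrm v (fun q : ∀ j, ι j => ∏ j, x j (q j)) q

/-- rescaling the blocks in a multihomogeneous polynomial. -/
theorem eval_rescale {k : Type*} [CommRing k] {L : Type*} [Fintype L] {ι : L → Type*}
    [∀ l, Finite (ι l)] {P : MvPolynomial (Σ l, ι l) k} {d : L → ℕ}
    (hP : P.IsWeightedHomogeneous (mwt (ι := ι)) d) (z : (Σ l, ι l) → k) (c : L → k) :
    eval (fun p => c p.1 * z p) P = (∏ l, c l ^ d l) * eval z P := by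
  classical
  have : ∀ l, Fintype (ι l) := fun l => Fintype.ofFinite _
  rw [eval_eq', eval_eq', Finset.mul_sum]
  refine Finset.sum_congr rfl fun m hm => ?_
  have hw : Finsupp.weight (mwt (ι := ι)) m = d := hP (mem_support_iff.1 hm)
  have h1 : ∏ p : (Σ l, ι l), c p.1 ^ m p = ∏ l, c l ^ d l := by
    rw [Fintype.prod_sigma]
    refine Finset.prod_congr rfl fun l _ => ?_
    change ∏ y, c l ^ m ⟨l, y⟩ = _
    rw [Finset.prod_pow_eq_pow_sum, ← weight_mwt_apply, hw]
  simp only [mul_pow, Finset.prod_mul_distrib, h1]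
  ring

variable {L : Type*} [Fintype L] {ι : L → Type*} [∀ l, Finite (ι l)] {J : Type*} [Finite J]

/-- [F-H9] **(BL)** lower bound on a multi-closed set on which the `p j` have no common zero
(multihomogeneous Nullstellensatz). -/
theorem habs_mh_ge (d : L → ℕ) (p : J → (∀ l, ι l → Qb) → Qb) (hp : ∀ j, IsMHPoly d (p j))
    (X : Set (∀ l, ι l → Qb)) (hX : IsMClosed X)
    (hnz : ∀ z ∈ X, (∀ l, z l ≠ 0) → ∃ j, p j z ≠ 0) :
    ∃ C : ℝ, ∀ z ∈ X, (∀ l, z l ≠ 0) →
      ∑ l, (d l : ℝ) * habs (z l) ≤ habs (fun j => p j z) + C := by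
  classical
  choose Φ hΦ hΦe using hp
  obtain ⟨Q, hQ, rfl⟩ := hX
  -- the generators of the ideal
  let G : Set (MvPolynomial (Σ l, ι l) Qb) :=
    {P | (∃ e, P.IsWeightedHomogeneous (mwt (ι := ι)) e) ∧
      ∃ f ∈ Q, ∀ z : ∀ l, ι l → Qb, f z = eval (fun q : Σ l, ι l => z q.1 q.2) P}
  have hIG : ∀ z : (Σ l, ι l) → Qb, (∀ P ∈ Ideal.span G, eval z P = 0) ↔ ∀ P ∈ G, eval z P = 0 := by
    intro z
    constructor
    · exact fun h P hP => h P (Ideal.subset_span hP)
    · intro h P hP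
      have : Ideal.span G ≤ RingHom.ker (eval z) := Ideal.span_le.2 fun P hP => h P hP
      exact this hP
  have hmem : ∀ z : (Σ l, ι l) → Qb, (∀ P ∈ G, eval z P = 0) ↔
      (fun l i => z ⟨l, i⟩) ∈ {z : ∀ l, ι l → Qb | ∀ f ∈ Q, f z = 0} := by
    intro z
    constructor
    · intro h f hf
      obtain ⟨e, P, hP, hPe⟩ := hQ f hf
      rw [hPe]
      exact h P ⟨⟨e, hP⟩, f, hf, hPe⟩
    · rintro h P ⟨-, f, hf, hPe⟩
      have := h f hf
      rw [hPe] at this
      exact this
  obtain ⟨γ, hγ⟩ := S17.El.thmM (Ideal.span G) Φ d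
    (fun t z l => eval_rescale (hΦ t) z l)
    (by
      intro z l _ hz
      rw [hIG] at hz ⊢
      rintro P ⟨⟨e, he⟩, hP⟩
      rw [eval_rescale he, hz P ⟨⟨e, he⟩, hP⟩, mul_zero])
    (by
      intro z hz hΦz
      rw [hIG, hmem] at hz
      by_contra hcon
      push Not at hcon
      obtain ⟨j, hj⟩ := hnz _ hz (fun l => by
        obtain ⟨i, hi⟩ := hcon l
        exact Function.ne_iff.mpr ⟨i, hi⟩)
      apply hj
      rw [hΦe]
      exact hΦz j)
  refine ⟨γ.ht, fun z hz hz0 => ?_⟩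
  have h4 : habs (fun q : (∀ a : (Σ l, Fin (d l)), ι a.1) => ∏ a, z a.1 (q a)) =
      ∑ l, (d l : ℝ) * habs (z l) := by
    rw [habs_pi_prod (J := Σ l, Fin (d l)) (fun a => z a.1) (fun a => hz0 a.1), Fintype.sum_sigma]
    exact Finset.sum_congr rfl fun l _ => by
      change ∑ _y : Fin (d l), habs (z l) = _
      rw [Finset.sum_const, Finset.card_univ, Fintype.card_fin, nsmul_eq_mul]
  rw [← h4]
  have hzz : (fun l i => (fun q : Σ l, ι l => z q.1 q.2) ⟨l, i⟩) = z := rfl
  obtain ⟨j, hj⟩ := hnz z hz hz0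
  refine S17.El.GP1 γ ?_ (Function.ne_iff.mpr ⟨j, hj⟩) fun v => ?_
  · have : ∀ a : (Σ l, Fin (d l)), ∃ i, z a.1 i ≠ 0 := fun a => Function.ne_iff.mp (hz0 a.1)
    choose q hq using this
    exact Function.ne_iff.mpr ⟨q, Finset.prod_ne_zero_iff.2 fun a _ => hq a⟩
  · rw [nrm_pi_prod v (J := Σ l, Fin (d l)) (fun a => z a.1) (fun a => hz0 a.1), Fintype.prod_sigma]
    have h5 := hγ v (fun q : Σ l, ι l => z q.1 q.2) ((hIG _).2 ((hmem _).2 hz))
      (fun b => Function.ne_iff.mp (hz0 b))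
    have h6 : (fun t => eval (fun q : Σ l, ι l => z q.1 q.2) (Φ t)) = fun j => p j z := by
      funext t; rw [hΦe]
    rw [h6] at h5
    refine le_trans (le_of_eq ?_) h5
    refine Finset.prod_congr rfl fun l _ => ?_
    change ∏ _y : Fin (d l), S17.El.nrm v (z l) = _
    rw [Finset.prod_const, Finset.card_univ, Fintype.card_fin]

end Fermat.Agent.MW
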