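import Fermat.Agent.S17.Height.Base
import Fermat.Agent.S17.Height.Bilin
import Fermat.Agent.S17.Height.Upper
import Fermat.Agent.S17.Height.Lower

/-!
# S17 route F, layer 0: everything the upper layers use (import hub)
-/
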