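import Fermat.Agent.S17.Height.Defs
import Fermat.Agent.S17.AH.Rel
import Fermat.Agent.S17.AH.Northcott

/-!
# S17 route F, layer 0: the height lemmas that are direct translations of `S17.AH`  (done)
-/

set_option autoImplicit false

namespace Fermat.Agent.MW

open MvPolynomial S17.AH

variable {ι κ μ : Type*} [Finite ι] [Finite κ] [Finite μ]

/-- [H1] -/
theorem habs_nonneg (x : ι → Qb) : 0 ≤ habs x := absLogHeight_nonneg x

theorem habs_zero : habs (0 : ι → Qb) = 0 := absLogHeight_zero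

/-- [H2] product formula -/
theorem habs_smul (x : ι → Qb) {c : Qb} (hc : c ≠ 0) : habs (c • x) = habs x :=
  absLogHeight_smul x hc

theorem habs_comp_equiv (e : ι ≃ κ) (x : κ → Qb) : habs (x ∘ e) = habs x :=
  absLogHeight_comp_equiv e x

/-- [H4] Galois invariance -/
theorem habs_galois (σ : GQ) (x : ι → Qb) : habs (fun i => σ (x i)) = habs x :=
  absLogHeight_algEquiv σ x

/-- [H5] Segre -/
theorem habs_tensor {x : ι → Qb} {y : κ → Qb} (hx : x ≠ 0) (hy : y ≠ 0) :
    habs (fun p : ι × κ => x p.1 * y p.2) = habs x + habs y :=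
  absLogHeight_tmul hx hy

/-- [H5'] Segre, many factors -/
theorem habs_pi_prod {J : Type*} [Fintype J] {ι : J → Type*} [∀ j, Finite (ι j)]
    (x : ∀ j, ι j → Qb) (hx : ∀ j, x j ≠ 0) :
    habs (fun q : ∀ j, ι j => ∏ j, x j (q j)) = ∑ j, habs (x j) :=
  absLogHeight_pi_prod x hx

/-- [H7] **Northcott in bounded degree.** -/
theorem habs_northcott (d : ℕ) (B : ℝ) :
    {x : ι → Qb | (∃ i, x i = 1) ∧ (∀ i, (minpoly ℚ (x i)).natDegree ≤ d) ∧ habs x ≤ B}.Finite :=
  finite_setOf_tuple_height_le d B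

end Fermat.Agent.MW
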