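import Fermat.Agent.S17.AH.Basic

/-!
# S17 route F (family comparison), layer 0: DEFINITIONS  (owner helper2, frozen)

* `Qb`, `GQ`; `habs = S17.AH.absLogHeight` (absolute logarithmic height of a `ℚ̄`-tuple);
* `IsMHPoly d f`: `f : (∀ l, ι l → k) → k` is a multihomogeneous polynomial function of multidegree `d`;
* `IsMClosed X`: `X` is the common zero set of multihomogeneous polynomial functions.
-/

set_option autoImplicit false

namespace Fermat.Agent.MW

/-- `ℚ̄` -/
abbrev Qb : Type := AlgebraicClosure ℚ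
/-- `G_ℚ` -/
abbrev GQ : Type := Qb ≃ₐ[ℚ] Qb

/-- **the absolute logarithmic height** of the point `[x] ∈ ℙ(ℚ̄)` (`0` for `x = 0`). -/
noncomputable def habs {ι : Type*} [Finite ι] (x : ι → Qb) : ℝ := S17.AH.absLogHeight x

theorem habs_def {ι : Type*} [Finite ι] (x : ι → Qb) : habs x = S17.AH.absLogHeight x := rfl

section MH

variable {k : Type*} [CommRing k] {L : Type*} {ι : L → Type*}

open Classical in
/-- the multi-weight: the variable `(l, i)` has weight `e_l`. -/
noncomputable def mwt : (Σ l, ι l) → (L → ℕ) := fun q => Pi.single q.1 1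

/-- `f` is a multihomogeneous polynomial function of multidegree `d` in the blocks `z l : ι l → k`. -/
def IsMHPoly (d : L → ℕ) (f : (∀ l, ι l → k) → k) : Prop :=
  ∃ p : MvPolynomial (Σ l, ι l) k, p.IsWeightedHomogeneous (mwt (ι := ι)) d ∧
    ∀ z, f z = MvPolynomial.eval (fun q : Σ l, ι l => z q.1 q.2) p

/-- `X` is the zero set of a family of multihomogeneous polynomial functions. -/
def IsMClosed (X : Set (∀ l, ι l → k)) : Prop :=
  ∃ Q : Set ((∀ l, ι l → k) → k), (∀ f ∈ Q, ∃ d, IsMHPoly d f) ∧ X = {z | ∀ f ∈ Q, f z = 0}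

end MH

end Fermat.Agent.MW
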